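/-
Programme T1B (row 38 via S44), cell G4 = LIFTC, brick (G4-e) DS (helper2), ABSTRACT PART.

Setting: `M ⊆ S₂(Γ₀(N))` an additive subgroup of "integral" forms, `red : M →+ B` a reduction map
into a vector space `B` over a field `kb` of characteristic `p` (think: `kb = ` residue field of a
place of `ℚ̄` over `p`, `B = kb((q))`, `red = ` reduction of `q`-expansions), and formal operators
`TB ℓ`, `UB q : B →ₗ[kb] B` which are intertwined by `red` with the Hecke operators `T_ℓ` (`ℓ ∤ N`),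
`U_q` (`q ∣ N`) of the Prelude (`Compat`).

`eigenOcc_of_reduction`: a nonzero `y` in the `kb`-span of `red M` with `TB ℓ y = a_ℓ y` (good `ℓ`)
and `c(UB 2) y = 0` (`c ∈ C`) gives `Top68.EigenOcc N p good a C`: a normalised eigenform of level
`N` whose eigenvalues are congruent to `a_ℓ` modulo a maximal ideal `𝔪' ∋ p` of the algebraic
integers and with `c(a_2) ∈ 𝔪'`.

Proof: the elements `t` of the full Hecke algebra `A = heckeAlgebra N 2 ∅` which admit a formal
counterpart `D` (`Compat t D`) killing `y` form a PROPER ideal `K` of `A` (`1 ∈ K` would force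
`y = 0` because the counterpart of `1` is the identity on the span of `red M`); it contains `p`,
`T_ℓ - a_ℓ` and `c(U_2)`.  Deligne–Serre in the form `Lift7.exists_eigenform_of_ideal` (helper7)
gives the eigenform.  No commutativity of the formal operators is needed.
-/
import Mathlib
import Fermat.Agent.T1B.Lift7.EigenOfIdeal
import Fermat.Agent.T1B.Top68.Global

set_option autoImplicit false
set_option linter.unusedSectionVars false

open CuspForm CongruenceSubgroup ModularFormClass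

noncomputable section

namespace Fermat.Agent.T1B.G4DS2

open Fermat.Agent.T1B.Top68

variable {N : ℕ} [NeZero N]
variable {kb : Type*} [Field kb] {B : Type*} [AddCommGroup B] [Module kb B]
variable {M : AddSubgroup (CuspForm (Gamma0 N) 2)} {red : M →+ B}

/-- `t` preserves the group `M` of integral forms and `red` intertwines it with the formal
operator `D`. -/
def Compat (M : AddSubgroup (CuspForm (Gamma0 N) 2)) (red : M →+ B)
    (t : Module.End ℂ (CuspForm (Gamma0 N) 2)) (D : Module.End kb B) : Prop :=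
  ∀ f : M, ∃ h : t (f : CuspForm (Gamma0 N) 2) ∈ M, red ⟨t f, h⟩ = D (red f)

theorem Compat.add {t t' : Module.End ℂ (CuspForm (Gamma0 N) 2)} {D D' : Module.End kb B}
    (h : Compat M red t D) (h' : Compat M red t' D') : Compat M red (t + t') (D + D') := by
  intro f
  obtain ⟨h1, e1⟩ := h f
  obtain ⟨h2, e2⟩ := h' f
  have hmem : (t + t') (f : CuspForm (Gamma0 N) 2) ∈ M := by
    rw [LinearMap.add_apply]
    exact M.add_mem h1 h2
  refine ⟨hmem, ?_⟩
  have : (⟨(t + t') (f : CuspForm (Gamma0 N) 2), hmem⟩ : M) = ⟨t f, h1⟩ + ⟨t' f, h2⟩ :=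
    Subtype.ext (LinearMap.add_apply _ _ _)
  rw [this, map_add, e1, e2, LinearMap.add_apply]

theorem Compat.mul {t t' : Module.End ℂ (CuspForm (Gamma0 N) 2)} {D D' : Module.End kb B}
    (h : Compat M red t D) (h' : Compat M red t' D') : Compat M red (t * t') (D * D') := by
  intro f
  obtain ⟨h2, e2⟩ := h' f
  obtain ⟨h1, e1⟩ := h ⟨t' f, h2⟩
  refine ⟨h1, ?_⟩
  show red ⟨t (t' (f : CuspForm (Gamma0 N) 2)), h1⟩ = D (D' (red f))
  rw [← e2]
  exact e1

theorem compat_algebraMap (M : AddSubgroup (CuspForm (Gamma0 N) 2)) (red : M →+ B) (n : ℤ) :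
    Compat (kb := kb) M red (algebraMap ℤ (Module.End ℂ (CuspForm (Gamma0 N) 2)) n)
      (algebraMap ℤ (Module.End kb B) n) := by
  intro f
  have hmem : (algebraMap ℤ (Module.End ℂ (CuspForm (Gamma0 N) 2)) n)
      (f : CuspForm (Gamma0 N) 2) ∈ M := by
    rw [Module.algebraMap_end_apply ℤ ℂ _ n _]
    exact M.zsmul_mem f.2 n
  refine ⟨hmem, ?_⟩
  have : (⟨(algebraMap ℤ (Module.End ℂ (CuspForm (Gamma0 N) 2)) n)
      (f : CuspForm (Gamma0 N) 2), hmem⟩ : M) = n • f :=
    Subtype.ext (Module.algebraMap_end_apply ℤ ℂ _ n _)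
  rw [this, map_zsmul, Module.algebraMap_end_apply ℤ kb _ n _]

/-- Every element of the full Hecke algebra has a formal counterpart, as soon as the generators
have one. -/
theorem exists_compat (TB UB : ℕ → Module.End kb B)
    (hT : ∀ (ℓ : ℕ) (hℓ : ℓ.Prime) (hℓN : ¬ ℓ ∣ N), Compat M red (heckeTLin 2 hℓ hℓN) (TB ℓ))
    (hU : ∀ (q : ℕ) (_ : q.Prime) (hqN : q ∣ N), Compat M red (heckeULin 2 hqN) (UB q))
    {t : Module.End ℂ (CuspForm (Gamma0 N) 2)} (ht : t ∈ heckeAlgebra N 2 (∅ : Set ℕ)) :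
    ∃ D : Module.End kb B, Compat M red t D := by
  induction ht using Algebra.adjoin_induction with
  | mem x hx =>
    rcases hx with ⟨ℓ, hℓ, hℓN, -, rfl⟩ | ⟨q, hqN, hq, -, rfl⟩
    · exact ⟨TB ℓ, hT ℓ hℓ hℓN⟩
    · exact ⟨UB q, hU q hq hqN⟩
  | algebraMap r => exact ⟨_, compat_algebraMap M red r⟩
  | add x y _ _ hx hy =>
    obtain ⟨D, hD⟩ := hx
    obtain ⟨D', hD'⟩ := hy
    exact ⟨D + D', hD.add hD'⟩
  | mul x y _ _ hx hy =>
    obtain ⟨D, hD⟩ := hx
    obtain ⟨D', hD'⟩ := hy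
    exact ⟨D * D', hD.mul hD'⟩

/-- A formal counterpart of the identity is the identity on the span of `red M`. -/
theorem Compat.apply_eq_of_one {D : Module.End kb B}
    (h : Compat M red (1 : Module.End ℂ (CuspForm (Gamma0 N) 2)) D) {y : B}
    (hy : y ∈ Submodule.span kb (Set.range red)) : D y = y := by
  induction hy using Submodule.span_induction with
  | mem x hx =>
    obtain ⟨f, rfl⟩ := hx
    obtain ⟨h1, e1⟩ := h f
    rw [← e1]
    rfl
  | zero => rw [map_zero]
  | add x z _ _ hx hz => rw [map_add, hx, hz]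
  | smul c x _ hx => rw [map_smul, hx]

/-- Polynomials in a compatible pair are compatible. -/
theorem Compat.aeval {t : Module.End ℂ (CuspForm (Gamma0 N) 2)} {D : Module.End kb B}
    (h : Compat M red t D) (c : Polynomial ℤ) :
    Compat M red (Polynomial.aeval t c) (Polynomial.aeval D c) := by
  induction c using Polynomial.induction_on' with
  | add c c' hc hc' =>
    rw [map_add, map_add]
    exact hc.add hc'
  | monomial n r =>
    rw [Polynomial.aeval_monomial, Polynomial.aeval_monomial]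
    refine (compat_algebraMap M red r).mul ?_
    induction n with
    | zero =>
      rw [pow_zero, pow_zero]
      have := compat_algebraMap (kb := kb) M red 1
      rwa [map_one, map_one] at this
    | succ n ih =>
      rw [pow_succ, pow_succ]
      exact ih.mul h

/-- The ideal of the full Hecke algebra of the elements having a formal counterpart which
kills `y`. -/
def annIdeal (M : AddSubgroup (CuspForm (Gamma0 N) 2)) (red : M →+ B)
    (hex : ∀ t ∈ heckeAlgebra N 2 (∅ : Set ℕ), ∃ D : Module.End kb B, Compat M red t D) (y : B) :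
    Ideal ↥(heckeAlgebra N 2 (∅ : Set ℕ)) where
  carrier := {t | ∃ D : Module.End kb B,
    Compat M red (t : Module.End ℂ (CuspForm (Gamma0 N) 2)) D ∧ D y = 0}
  zero_mem' := by
    refine ⟨0, ?_, LinearMap.zero_apply y⟩
    have := compat_algebraMap (kb := kb) M red 0
    rwa [map_zero, map_zero] at this
  add_mem' := by
    rintro t t' ⟨D, hD, hy⟩ ⟨D', hD', hy'⟩
    refine ⟨D + D', hD.add hD', ?_⟩
    rw [LinearMap.add_apply, hy, hy', add_zero]
  smul_mem' := by
    rintro s t ⟨D, hD, hy⟩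
    obtain ⟨Ds, hDs⟩ := hex s s.2
    refine ⟨Ds * D, hDs.mul hD, ?_⟩
    rw [Module.End.mul_apply, hy, map_zero]

theorem mem_annIdeal {hex : ∀ t ∈ heckeAlgebra N 2 (∅ : Set ℕ),
      ∃ D : Module.End kb B, Compat M red t D} {y : B} {t : ↥(heckeAlgebra N 2 (∅ : Set ℕ))} :
    t ∈ annIdeal M red hex y ↔ ∃ D : Module.End kb B,
      Compat M red (t : Module.End ℂ (CuspForm (Gamma0 N) 2)) D ∧ D y = 0 :=
  Iff.rfl

theorem annIdeal_ne_top (hex : ∀ t ∈ heckeAlgebra N 2 (∅ : Set ℕ),
      ∃ D : Module.End kb B, Compat M red t D) {y : B}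
    (hy : y ∈ Submodule.span kb (Set.range red)) (hy0 : y ≠ 0) : annIdeal M red hex y ≠ ⊤ := by
  intro htop
  have h1 : (1 : ↥(heckeAlgebra N 2 (∅ : Set ℕ))) ∈ annIdeal M red hex y := by
    rw [htop]; exact Submodule.mem_top
  obtain ⟨D, hD, hDy⟩ := h1
  exact hy0 ((hD.apply_eq_of_one hy).symm.trans hDy)

/-- **(G4-e), abstract form.** -/
theorem eigenOcc_of_reduction (p : ℕ) [Fact p.Prime] [CharP kb p]
    (M : AddSubgroup (CuspForm (Gamma0 N) 2)) (red : M →+ B) (TB UB : ℕ → Module.End kb B)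
    (hT : ∀ (ℓ : ℕ) (hℓ : ℓ.Prime) (hℓN : ¬ ℓ ∣ N), Compat M red (heckeTLin 2 hℓ hℓN) (TB ℓ))
    (hU : ∀ (q : ℕ) (_ : q.Prime) (hqN : q ∣ N), Compat M red (heckeULin 2 hqN) (UB q))
    (h2N : 2 ∣ N) (good : ℕ → Prop) (a : ℕ → ℤ) (C : Set (Polynomial ℤ))
    (hgood : ∀ ℓ, good ℓ → ℓ.Prime ∧ ¬ ℓ ∣ N)
    (y : B) (hy : y ∈ Submodule.span kb (Set.range red)) (hy0 : y ≠ 0)
    (hTy : ∀ ℓ, good ℓ → TB ℓ y = a ℓ • y)
    (hCy : ∀ c ∈ C, Polynomial.aeval (UB 2) c y = 0) :
    EigenOcc N p good a C := by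
  have hex : ∀ t ∈ heckeAlgebra N 2 (∅ : Set ℕ), ∃ D : Module.End kb B, Compat M red t D :=
    fun t ht => exists_compat TB UB hT hU ht
  have hK : annIdeal M red hex y ≠ ⊤ := annIdeal_ne_top hex hy hy0
  obtain ⟨g, χ, 𝔪', hg, h𝔪', hle, hχ⟩ :=
    Fermat.Agent.T1B.Lift7.exists_eigenform_of_ideal (annIdeal M red hex y) hK
  have h2S : (2 : ℕ) ∉ (∅ : Set ℕ) := Set.notMem_empty 2
  refine ⟨g, 𝔪', χ (heckeAlgebra.U Nat.prime_two h2N h2S), hg, h𝔪', ?_, ?_, ?_, ?_⟩
  · -- `p ∈ 𝔪'`
    have hmem : ((p : ℤ) : ↥(heckeAlgebra N 2 (∅ : Set ℕ))) ∈ annIdeal M red hex y := by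
      refine ⟨algebraMap ℤ (Module.End kb B) (p : ℤ), ?_, ?_⟩
      · have := compat_algebraMap (kb := kb) M red (p : ℤ)
        simpa using this
      · rw [Module.algebraMap_end_apply ℤ kb _ _ _, natCast_zsmul, ← Nat.cast_smul_eq_nsmul kb,
          CharP.cast_eq_zero, zero_smul]
    have h := hle hmem
    rw [Ideal.mem_comap, map_intCast] at h
    exact_mod_cast h
  · -- the congruences at the good primes
    intro ℓ hℓgood
    obtain ⟨hℓ, hℓN⟩ := hgood ℓ hℓgood
    have hℓS : ℓ ∉ (∅ : Set ℕ) := Set.notMem_empty ℓ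
    refine ⟨χ (heckeAlgebra.T hℓ hℓN hℓS), ?_, ?_⟩
    · exact (Fermat.Agent.ES.LR.EigenformOfCommon23.qCoeff_eq_of_heckeTLin_eq_smul hg hℓ hℓN
        (hχ (heckeAlgebra.T hℓ hℓN hℓS))).symm
    · have hmem : heckeAlgebra.T hℓ hℓN hℓS - ((a ℓ : ℤ) : ↥(heckeAlgebra N 2 (∅ : Set ℕ))) ∈
          annIdeal M red hex y := by
        refine ⟨TB ℓ - algebraMap ℤ (Module.End kb B) (a ℓ), ?_, ?_⟩
        · have h1 := hT ℓ hℓ hℓN
          have h2 := compat_algebraMap (kb := kb) M red (-(a ℓ))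
          have h3 := h1.add h2
          simpa [sub_eq_add_neg] using h3
        · rw [LinearMap.sub_apply, Module.algebraMap_end_apply ℤ kb _ _ _, hTy ℓ hℓgood, sub_self]
      have h := hle hmem
      rwa [Ideal.mem_comap, map_sub, map_intCast] at h
  · -- `α' = a_2(g)`
    exact (Fermat.Agent.ES.LR.EigenformOfCommon23.qCoeff_eq_of_heckeULin_eq_smul hg Nat.prime_two h2N
      (hχ (heckeAlgebra.U Nat.prime_two h2N h2S))).symm
  · -- `c(α') ∈ 𝔪'`
    intro c hc
    have hmem : Polynomial.aeval (heckeAlgebra.U Nat.prime_two h2N h2S :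
        ↥(heckeAlgebra N 2 (∅ : Set ℕ))) c ∈ annIdeal M red hex y := by
      refine ⟨Polynomial.aeval (UB 2) c, ?_, hCy c hc⟩
      have h1 := (hU 2 Nat.prime_two h2N).aeval c
      have h2 : ((Polynomial.aeval (heckeAlgebra.U Nat.prime_two h2N h2S :
          ↥(heckeAlgebra N 2 (∅ : Set ℕ))) c : ↥(heckeAlgebra N 2 (∅ : Set ℕ))) :
          Module.End ℂ (CuspForm (Gamma0 N) 2)) = Polynomial.aeval (heckeULin 2 h2N) c :=
        (Polynomial.aeval_algHom_apply (heckeAlgebra N 2 (∅ : Set ℕ)).val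
          (heckeAlgebra.U Nat.prime_two h2N h2S) c).symm
      rw [h2]
      exact h1
    have h := hle hmem
    rw [Ideal.mem_comap] at h
    have h2 : Polynomial.aeval (χ (heckeAlgebra.U Nat.prime_two h2N h2S)) c =
        χ (Polynomial.aeval (heckeAlgebra.U Nat.prime_two h2N h2S :
          ↥(heckeAlgebra N 2 (∅ : Set ℕ))) c) :=
      Polynomial.aeval_algHom_apply χ.toIntAlgHom _ c
    rw [h2]
    exact h

end Fermat.Agent.T1B.G4DS2
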