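/-
Programme T1B (row 38 via S44), cell H (helper13), brick H-LIFT = (G4-e) (helper2):
**`Hol13.LIFTQ`, unconditional.**

A nonzero `w` in the `κ`-span `redSpan κ N` of the reductions of the weight 2 cusp forms of level
`Γ₀(N)` with integral `q`-expansion, with `T_ℓ w = a_ℓ w` (good `ℓ`) and `c(U_2) w = 0` (`c ∈ C`)
for the formal operators `Hecke7.heckeT2`, `Hecke7.Uop 2` on `κ((q))`, gives a normalised eigenform
of level `N` with the congruent eigensystem (`Top68.EigenOcc`).

Instance of `G4DS2.eigenOcc_of_reduction` (`Abstract.lean`): `M = zForms N` (forms with integral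
`q`-expansion), `red = redZ κ N` (`g ↦ ∑ (c_n : κ) q^n`), compatibility of the formal operators with
the Prelude's Hecke operators from the coefficient formulas `S49.qCoeff_heckeTLin / _heckeULin`.
-/
import Mathlib
import Fermat.Agent.T1B.G4DS2.Abstract
import Fermat.Agent.T1B.Hol13.Iface
import Fermat.Agent.S49.QExp

set_option autoImplicit false
set_option linter.unusedSectionVars false

open CuspForm CongruenceSubgroup ModularFormClass HahnSeries ModularCurve

noncomputable section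

namespace Fermat.Agent.T1B.G4DS2

open Fermat.Agent.T1B.Top68 Fermat.Agent.T1B.Hol13 Fermat.Agent.T1B.Hecke7

/-! ### `serOf` -/

section SerOf

variable (R : Type*) [CommRing R]

theorem serOf_coeff_neg (c : ℕ → ℤ) {k : ℤ} (hk : k < 0) : (serOf R c).coeff k = 0 := by
  rw [serOf, HahnSeries.ofPowerSeries_apply]
  apply HahnSeries.embDomain_of_notMem_range
  rintro ⟨n, hn⟩
  have : (n : ℤ) = k := hn
  omega

theorem serOf_add (c c' : ℕ → ℤ) : serOf R (c + c') = serOf R c + serOf R c' := by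
  rw [serOf, serOf, serOf, ← map_add]
  congr 1
  ext n
  simp

theorem serOf_zero : serOf R (0 : ℕ → ℤ) = 0 := by
  rw [serOf]
  have : (PowerSeries.mk fun n => (((0 : ℕ → ℤ) n : ℤ) : R)) = 0 := by
    ext n
    simp
  rw [this, map_zero]

/-- Extensionality for Laurent series through natural and negative indices. -/
theorem ext_nat_neg {x y : LaurentSeries R} (h1 : ∀ n : ℕ, x.coeff (n : ℤ) = y.coeff (n : ℤ))
    (h2 : ∀ k : ℤ, k < 0 → x.coeff k = y.coeff k) : x = y := by
  ext k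
  rcases lt_or_ge k 0 with hk | hk
  · exact h2 k hk
  · obtain ⟨n, rfl⟩ := Int.eq_ofNat_of_zero_le hk
    exact h1 n

end SerOf

/-! ### The formal operators as linear maps -/

section Ops

variable (κ : Type*) [Field κ]

/-- `U_q` on `κ((q))`, `κ`-linear. -/
def UBlin' (q : ℕ) [NeZero q] : Module.End κ (LaurentSeries κ) where
  toFun := Uop q
  map_add' := map_add _
  map_smul' c g := by
    ext n
    simp [Uop_coeff]

/-- `T_ℓ = U_ℓ + ℓ V_ℓ` on `κ((q))`, `κ`-linear. -/
def TBlin' (ℓ : ℕ) [NeZero ℓ] : Module.End κ (LaurentSeries κ) where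
  toFun := heckeT2 ℓ
  map_add' g g' := by
    ext n
    simp only [heckeT2_coeff, HahnSeries.coeff_add]
    split_ifs <;> ring
  map_smul' c g := by
    ext n
    simp only [RingHom.id_apply, heckeT2_coeff, HahnSeries.coeff_smul, smul_eq_mul]
    split_ifs <;> ring

/-- `U_q`, total in `q`. -/
def UBlin (q : ℕ) : Module.End κ (LaurentSeries κ) :=
  if h : q = 0 then 0 else haveI : NeZero q := ⟨h⟩; UBlin' κ q

/-- `T_ℓ`, total in `ℓ`. -/
def TBlin (ℓ : ℕ) : Module.End κ (LaurentSeries κ) :=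
  if h : ℓ = 0 then 0 else haveI : NeZero ℓ := ⟨h⟩; TBlin' κ ℓ

theorem UBlin_apply (q : ℕ) [hq : NeZero q] (g : LaurentSeries κ) : UBlin κ q g = Uop q g := by
  rw [UBlin, dif_neg hq.out]
  rfl

theorem TBlin_apply (ℓ : ℕ) [hℓ : NeZero ℓ] (g : LaurentSeries κ) :
    TBlin κ ℓ g = heckeT2 ℓ g := by
  rw [TBlin, dif_neg hℓ.out]
  rfl

end Ops

/-! ### Forms with integral `q`-expansion -/

section ZForms

variable (N : ℕ)

/-- The cusp forms with integral `q`-expansion. -/
def zForms : AddSubgroup (CuspForm (Gamma0 N) 2) where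
  carrier := {g | ∃ c : ℕ → ℤ, IsZCoeff g c}
  zero_mem' := ⟨0, fun n => by
    rw [Fermat.Agent.S49.qCoeff_zero_form]
    simp⟩
  add_mem' := by
    rintro g g' ⟨c, hc⟩ ⟨c', hc'⟩
    refine ⟨c + c', fun n => ?_⟩
    rw [Fermat.Agent.S49.qCoeff_add, hc n, hc' n]
    simp
  neg_mem' := by
    rintro g ⟨c, hc⟩
    refine ⟨-c, fun n => ?_⟩
    rw [Fermat.Agent.S49.qCoeff_neg, hc n]
    simp

variable {N}

theorem isZCoeff_unique {g : CuspForm (Gamma0 N) 2} {c c' : ℕ → ℤ} (h : IsZCoeff g c)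
    (h' : IsZCoeff g c') : c = c' := by
  funext n
  have := (h n).symm.trans (h' n)
  exact_mod_cast this

/-- The integral `q`-coefficients. -/
def zc (g : zForms N) : ℕ → ℤ := g.2.choose

theorem isZCoeff_zc (g : zForms N) : IsZCoeff (g : CuspForm (Gamma0 N) 2) (zc g) :=
  g.2.choose_spec

theorem zc_eq {g : zForms N} {c : ℕ → ℤ} (h : IsZCoeff (g : CuspForm (Gamma0 N) 2) c) :
    zc g = c := isZCoeff_unique (isZCoeff_zc g) h

variable (κ : Type*) [Field κ] (N)

/-- Reduction of the integral `q`-expansion. -/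
def redZ : zForms N →+ LaurentSeries κ where
  toFun g := serOf κ (zc g)
  map_zero' := by
    have : zc (0 : zForms N) = 0 := zc_eq fun n => by
      rw [show ((0 : zForms N) : CuspForm (Gamma0 N) 2) = 0 from rfl,
        Fermat.Agent.S49.qCoeff_zero_form]
      simp
    rw [this, serOf_zero]
  map_add' g g' := by
    have : zc (g + g') = zc g + zc g' := zc_eq fun n => by
      rw [show ((g + g' : zForms N) : CuspForm (Gamma0 N) 2) =
          (g : CuspForm (Gamma0 N) 2) + (g' : CuspForm (Gamma0 N) 2) from rfl,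
        Fermat.Agent.S49.qCoeff_add, isZCoeff_zc g n, isZCoeff_zc g' n]
      simp
    rw [this, serOf_add]

theorem redZ_apply (g : zForms N) : redZ N κ g = serOf κ (zc g) := rfl

theorem range_redZ : Set.range (redZ N κ) = redSet κ N := by
  ext s
  constructor
  · rintro ⟨g, rfl⟩
    exact ⟨g, zc g, isZCoeff_zc g, rfl⟩
  · rintro ⟨g, c, hc, rfl⟩
    refine ⟨⟨g, c, hc⟩, ?_⟩
    rw [redZ_apply, zc_eq (g := ⟨g, c, hc⟩) hc]

end ZForms

/-! ### Compatibility with the Hecke operators -/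

section Compat

variable {N : ℕ} [NeZero N] (κ : Type*) [Field κ]

theorem compat_T {ℓ : ℕ} (hℓ : ℓ.Prime) (hℓN : ¬ ℓ ∣ N) :
    Compat (zForms N) (redZ N κ) (heckeTLin 2 hℓ hℓN) (TBlin κ ℓ) := by
  have : NeZero ℓ := ⟨hℓ.ne_zero⟩
  intro g
  set c := zc g with hc
  have hg := isZCoeff_zc g
  set c' : ℕ → ℤ := fun n => c (n * ℓ) + if ℓ ∣ n then (ℓ : ℤ) * c (n / ℓ) else 0 with hc'
  have hZ : IsZCoeff (heckeTLin 2 hℓ hℓN (g : CuspForm (Gamma0 N) 2)) c' := by
    intro n
    rw [Fermat.Agent.S49.qCoeff_heckeTLin hℓ hℓN, hg (n * ℓ), hg (n / ℓ)]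
    simp only [hc']
    split_ifs <;> push_cast <;> ring
  refine ⟨⟨c', hZ⟩, ?_⟩
  rw [redZ_apply, zc_eq (g := ⟨_, c', hZ⟩) hZ, redZ_apply, TBlin_apply]
  have hℓpos : (0 : ℤ) < ℓ := by exact_mod_cast hℓ.pos
  apply ext_nat_neg
  · intro n
    rw [serOf_coeff_natCast, heckeT2_coeff]
    have h1 : ((ℓ : ℤ) * (n : ℤ)) = ((n * ℓ : ℕ) : ℤ) := by push_cast; ring
    have h2 : ((n : ℤ) / (ℓ : ℤ)) = ((n / ℓ : ℕ) : ℤ) := by push_cast; rfl
    rw [h1, h2, serOf_coeff_natCast, serOf_coeff_natCast]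
    simp only [hc']
    by_cases hn : ℓ ∣ n
    · rw [if_pos hn, if_pos (Int.natCast_dvd_natCast.2 hn)]
      push_cast
      ring
    · rw [if_neg hn, if_neg (fun h => hn (Int.natCast_dvd_natCast.1 h))]
      push_cast
      ring
  · intro k hk
    rw [serOf_coeff_neg κ _ hk, heckeT2_coeff, serOf_coeff_neg κ _ (by nlinarith)]
    split_ifs with hd
    · have : k / (ℓ : ℤ) < 0 := Int.ediv_neg_of_neg_of_pos hk hℓpos
      rw [serOf_coeff_neg κ _ this, mul_zero, add_zero]
    · rw [add_zero]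

theorem compat_U {q : ℕ} (hq : q.Prime) (hqN : q ∣ N) :
    Compat (zForms N) (redZ N κ) (heckeULin 2 hqN) (UBlin κ q) := by
  have : NeZero q := ⟨hq.ne_zero⟩
  intro g
  set c := zc g with hc
  have hg := isZCoeff_zc g
  set c' : ℕ → ℤ := fun n => c (n * q) with hc'
  have hZ : IsZCoeff (heckeULin 2 hqN (g : CuspForm (Gamma0 N) 2)) c' := by
    intro n
    rw [Fermat.Agent.S49.qCoeff_heckeULin hq hqN, hg (n * q)]
  refine ⟨⟨c', hZ⟩, ?_⟩
  rw [redZ_apply, zc_eq (g := ⟨_, c', hZ⟩) hZ, redZ_apply, UBlin_apply]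
  have hqpos : (0 : ℤ) < q := by exact_mod_cast hq.pos
  apply ext_nat_neg
  · intro n
    rw [serOf_coeff_natCast, Uop_coeff]
    have h1 : ((q : ℤ) * (n : ℤ)) = ((n * q : ℕ) : ℤ) := by push_cast; ring
    rw [h1, serOf_coeff_natCast]
  · intro k hk
    rw [serOf_coeff_neg κ _ hk, Uop_coeff, serOf_coeff_neg κ _ (by nlinarith)]

end Compat

/-! ### Polynomials in `U_2`: `ℤ`-linear versus `κ`-linear -/

section Aeval

variable {κ : Type*} [Field κ] {V : Type*} [AddCommGroup V] [Module κ V]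

theorem pow_apply_eq_of_forall {D : Module.End κ V} {D' : Module.End ℤ V}
    (h : ∀ x, D x = D' x) (n : ℕ) (x : V) : (D ^ n) x = (D' ^ n) x := by
  induction n generalizing x with
  | zero => rfl
  | succ n ih => rw [pow_succ, pow_succ, Module.End.mul_apply, Module.End.mul_apply, h, ih]

theorem aeval_apply_eq_of_forall {D : Module.End κ V} {D' : Module.End ℤ V}
    (h : ∀ x, D x = D' x) (c : Polynomial ℤ) (x : V) :
    Polynomial.aeval D c x = Polynomial.aeval D' c x := by
  induction c using Polynomial.induction_on' with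
  | add c c' hc hc' => rw [map_add, map_add, LinearMap.add_apply, LinearMap.add_apply, hc, hc']
  | monomial n r =>
    rw [Polynomial.aeval_monomial, Polynomial.aeval_monomial, Module.End.mul_apply,
      Module.End.mul_apply, Module.algebraMap_end_apply ℤ κ _ _ _,
      Module.algebraMap_end_apply ℤ ℤ _ _ _, pow_apply_eq_of_forall h]

end Aeval

/-! ### `LIFTQ` -/

/-- **`Hol13.LIFTQ`.** -/
theorem liftQ : LIFTQ := by
  intro N p _ hp h2N κ _ _ good a C hgood w hw0 hw hTw hUw
  have : Fact p.Prime := ⟨hp⟩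
  refine eigenOcc_of_reduction p (zForms N) (redZ N κ) (TBlin κ) (UBlin κ)
    (fun ℓ hℓ hℓN => compat_T κ hℓ hℓN) (fun q hq hqN => compat_U κ hq hqN) h2N good a C
    (fun ℓ h => ⟨(hgood ℓ h).1, (hgood ℓ h).2.1⟩) w ?_ hw0 ?_ ?_
  · rw [range_redZ]
    exact hw
  · intro ℓ hℓ
    have : NeZero ℓ := ⟨(hgood ℓ hℓ).1.ne_zero⟩
    rw [TBlin_apply, hTw ℓ hℓ, Int.cast_smul_eq_zsmul]
  · intro c hc
    have h := hUw c hc
    rw [← h]
    apply aeval_apply_eq_of_forall
    intro x
    rw [UBlin_apply]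
    rfl

end Fermat.Agent.T1B.G4DS2
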